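/-
ISOG (S12/S09), package (P5) (helper1): **an everywhere unramified character of `G_ℚ` is trivial**
(Minkowski, via `S13Lib.eq_top_of_inertia_le`), in the shapes consumed by the chain induction.

* `mz2u_hom_trivial`     : a homomorphism `θ : G_ℚ →* C` of finite level which kills the inertia groups of
  all places over the primes `q ≠ p` and of ONE place over `p` is trivial;
* `mz2u_trivial_on_quot` : `G_ℚ` acting on an abelian group `T`, `N' ≤ M ≤ T` stable subgroups, the action on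
  `M` of finite level: if all these inertia groups act trivially on `M / N'`, then so does `G_ℚ`.
-/
import Fermat.Agent.Lib.S13.GlobalTrivial

set_option autoImplicit false
set_option linter.unusedSectionVars false
set_option linter.unusedVariables false
set_option linter.style.haveILetI false

namespace Fermat.Agent.Mazur2

local notation "Qb" => AlgebraicClosure ℚ
local notation "GQ" => (AlgebraicClosure ℚ ≃ₐ[ℚ] AlgebraicClosure ℚ)

/-- the fixing subgroup of a finite level is open -/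
theorem mz2u_isOpen_of_level (H : Subgroup GQ)
    (hlev : ∃ L : IntermediateField ℚ Qb, FiniteDimensional ℚ L ∧
      ∀ σ : GQ, (∀ a ∈ L, σ a = a) → σ ∈ H) : IsOpen (H : Set GQ) := by
  obtain ⟨L, hL, hLH⟩ := hlev
  haveI := hL
  refine Subgroup.isOpen_mono (H₁ := L.fixingSubgroup) ?_ (IntermediateField.fixingSubgroup_isOpen L)
  intro σ hσ
  exact hLH σ (fun a ha => hσ ⟨a, ha⟩)

/-- **(P5), homomorphism form** -/
theorem mz2u_hom_trivial {C : Type*} [Group C] (θ : GQ →* C)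
    (hlev : ∃ L : IntermediateField ℚ Qb, FiniteDimensional ℚ L ∧
      ∀ σ : GQ, (∀ a ∈ L, σ a = a) → θ σ = 1)
    (p : ℕ) (hp : p.Prime)
    (hout : ∀ q : ℕ, q.Prime → q ≠ p → ∀ A : ValuationSubring Qb, A.LiesOverPrime q →
      ∀ σ ∈ A.inertiaSubgroupIn ℚ, θ σ = 1)
    (A₀ : ValuationSubring Qb) (hA₀ : A₀.LiesOverPrime p)
    (h₀ : ∀ σ ∈ A₀.inertiaSubgroupIn ℚ, θ σ = 1) (σ : GQ) : θ σ = 1 := by
  have hopen : IsOpen ((θ.ker : Subgroup GQ) : Set GQ) :=
    mz2u_isOpen_of_level θ.ker (by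
      obtain ⟨L, hL, h⟩ := hlev
      exact ⟨L, hL, fun σ hσ => MonoidHom.mem_ker.mpr (h σ hσ)⟩)
  have htop : θ.ker = ⊤ :=
    Fermat.Agent.S13Lib.eq_top_of_inertia_le θ.ker hopen p hp
      (fun q hq hqp A hA σ hσ => MonoidHom.mem_ker.mpr (hout q hq hqp A hA σ hσ)) A₀ hA₀
      (fun σ hσ => MonoidHom.mem_ker.mpr (h₀ σ hσ))
  have : σ ∈ θ.ker := by rw [htop]; trivial
  exact MonoidHom.mem_ker.mp this

section Action

variable {T : Type*} [AddCommGroup T] [DistribMulAction GQ T]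

/-- the subgroup of `G_ℚ` acting trivially on `M / N'` -/
def mz2uStab (M N' : AddSubgroup T) (hM : ∀ σ : GQ, ∀ x ∈ M, σ • x ∈ M)
    (hN : ∀ σ : GQ, ∀ x ∈ N', σ • x ∈ N') : Subgroup GQ where
  carrier := {σ | ∀ x ∈ M, σ • x - x ∈ N'}
  one_mem' := fun x _ => by rw [one_smul, sub_self]; exact N'.zero_mem
  mul_mem' := fun {a b} ha hb x hx => by
    have h1 : (a * b) • x - x = a • (b • x - x) + (a • x - x) := by
      rw [mul_smul, smul_sub]; abel
    rw [h1]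
    exact N'.add_mem (hN a _ (hb x hx)) (ha x hx)
  inv_mem' := fun {a} ha x hx => by
    have h1 : a⁻¹ • x - x = -(a⁻¹ • (a • x - x)) := by
      rw [smul_sub, inv_smul_smul]; abel
    rw [h1]
    exact N'.neg_mem (hN a⁻¹ _ (ha x hx))

theorem mem_mz2uStab {M N' : AddSubgroup T} {hM : ∀ σ : GQ, ∀ x ∈ M, σ • x ∈ M}
    {hN : ∀ σ : GQ, ∀ x ∈ N', σ • x ∈ N'} {σ : GQ} :
    σ ∈ mz2uStab M N' hM hN ↔ ∀ x ∈ M, σ • x - x ∈ N' := Iff.rfl

instance mz2uStab_normal (M N' : AddSubgroup T) (hM : ∀ σ : GQ, ∀ x ∈ M, σ • x ∈ M)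
    (hN : ∀ σ : GQ, ∀ x ∈ N', σ • x ∈ N') : (mz2uStab M N' hM hN).Normal :=
  ⟨fun n hn g x hx => by
    have h1 : (g * n * g⁻¹) • x - x = g • (n • (g⁻¹ • x) - g⁻¹ • x) := by
      rw [mul_smul, mul_smul, smul_sub, smul_inv_smul]
    rw [h1]
    exact hN g _ (hn _ (hM g⁻¹ x hx))⟩

/-- **(P5), action form**: if the inertia groups of all places over `q ≠ p` and of one place over
`p` act trivially on `M / N'`, then `G_ℚ` acts trivially on `M / N'` -/
theorem mz2u_trivial_on_quot (M N' : AddSubgroup T) (hM : ∀ σ : GQ, ∀ x ∈ M, σ • x ∈ M)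
    (hN : ∀ σ : GQ, ∀ x ∈ N', σ • x ∈ N')
    (hlev : ∃ L : IntermediateField ℚ Qb, FiniteDimensional ℚ L ∧
      ∀ σ : GQ, (∀ a ∈ L, σ a = a) → ∀ x ∈ M, σ • x = x)
    (p : ℕ) (hp : p.Prime)
    (hout : ∀ q : ℕ, q.Prime → q ≠ p → ∀ A : ValuationSubring Qb, A.LiesOverPrime q →
      ∀ σ ∈ A.inertiaSubgroupIn ℚ, ∀ x ∈ M, σ • x - x ∈ N')
    (A₀ : ValuationSubring Qb) (hA₀ : A₀.LiesOverPrime p)
    (h₀ : ∀ σ ∈ A₀.inertiaSubgroupIn ℚ, ∀ x ∈ M, σ • x - x ∈ N') (σ : GQ) :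
    ∀ x ∈ M, σ • x - x ∈ N' := by
  have hopen : IsOpen ((mz2uStab M N' hM hN : Subgroup GQ) : Set GQ) :=
    mz2u_isOpen_of_level _ (by
      obtain ⟨L, hL, h⟩ := hlev
      refine ⟨L, hL, fun σ hσ x hx => ?_⟩
      rw [h σ hσ x hx, sub_self]
      exact N'.zero_mem)
  have htop : mz2uStab M N' hM hN = ⊤ :=
    Fermat.Agent.S13Lib.eq_top_of_inertia_le _ hopen p hp
      (fun q hq hqp A hA σ hσ => hout q hq hqp A hA σ hσ) A₀ hA₀ (fun σ hσ => h₀ σ hσ)
  have : σ ∈ mz2uStab M N' hM hN := by rw [htop]; trivial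
  exact this

end Action

end Fermat.Agent.Mazur2
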